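import Fermat.Agent.S31.Defs
import Fermat.Agent.S31.H22.Assembly
import Fermat.Prelude.Def_GaloisRep_LocalConditions

/-!
# S34 — glue (helper733):  `S34 ⇐ S30U + CHEB (Tier 1) + PTS`

`S30UStatement` is the statement S30 with the extra conclusion that the representation attached to
a `p`-adic point of the Hecke algebra of level `N` is unipotent on inertia at every prime `q ≠ p`
with `q ‖ N` (this is what the Galois tower + the wall "cell A2" deliver).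

`unipotent_of_parts` deduces the frozen statement S34 for an arbitrary Hecke–Galois datum from
`S30UStatement`, the Frobenius density statement `ChebStatement` and `PTS` (the `p`-adic points of
the Hecke algebra are topologically separating), following the assembly of S31 (helper22).
-/

set_option autoImplicit false

open Polynomial

namespace Fermat.Agent.S34.H733

open Fermat.Agent.S31 Fermat.Agent.S31.H22

/-- The statement S30, strengthened: the representation attached to a `p`-adic point of the Hecke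
algebra is unipotent on inertia at the primes `q ≠ p` exactly dividing the level. -/
def S30UStatement : Prop :=
  ∀ (p : ℕ) [Fact p.Prime] (N : ℕ) [NeZero N] (S : Finset ℕ)
    (_hpS : p ∈ S) (_hNS : ∀ q : ℕ, q.Prime → q ∣ N → q ∈ S)
    (𝒪' : Type) [CommRing 𝒪'] [IsDomain 𝒪'] [IsDiscreteValuationRing 𝒪']
    [IsAdicComplete (IsLocalRing.maximalIdeal 𝒪') 𝒪'] [Finite (IsLocalRing.ResidueField 𝒪')]
    [CharZero 𝒪'] (_hp𝒪' : (p : 𝒪') ∈ IsLocalRing.maximalIdeal 𝒪')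
    (χ : CuspForm.heckeAlgebra N 2 (↑S : Set ℕ) →+* 𝒪'),
    ∃ (𝒪'' : Type) (_ : CommRing 𝒪'') (_ : IsDomain 𝒪'') (_ : IsDiscreteValuationRing 𝒪'')
      (_ : IsAdicComplete (IsLocalRing.maximalIdeal 𝒪'') 𝒪'')
      (_ : Finite (IsLocalRing.ResidueField 𝒪'')) (_ : CharZero 𝒪'')
      (_ : Algebra 𝒪' 𝒪'') (_ : Module.Finite 𝒪' 𝒪'') (_ : IsLocalHom (algebraMap 𝒪' 𝒪'')),
    Function.Injective (algebraMap 𝒪' 𝒪'') ∧
    ∃ ρ : GaloisRepAdic 𝒪'',
      (∀ (ℓ : ℕ) (hℓ : ℓ.Prime) (hℓN : ¬ ℓ ∣ N) (hℓS : ℓ ∉ (↑S : Set ℕ)),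
        ∀ A : ValuationSubring (AlgebraicClosure ℚ), A.LiesOverPrime ℓ →
          ∀ σ : AlgebraicClosure ℚ ≃ₐ[ℚ] AlgebraicClosure ℚ, A.IsFrobeniusAt σ ℓ →
            LinearMap.charpoly (ρ.ρ σ) =
              X ^ 2 - C (algebraMap 𝒪' 𝒪'' (χ (CuspForm.heckeAlgebra.T hℓ hℓN hℓS))) * X
                + C ((ℓ : 𝒪''))) ∧
      (∀ q : ℕ, q.Prime → q ≠ p → q ∣ N → ¬ q ^ 2 ∣ N → ρ.IsUnipotentOnInertiaAt q)

/-! ### Linear algebra in rank 2 -/

section LinAlg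

variable {R : Type*} [CommRing R] [Nontrivial R] {M : Type*} [AddCommGroup M] [Module R M]
  [Module.Free R M] [Module.Finite R M]

/-- The characteristic polynomial of an endomorphism of a free module of rank `2`. -/
theorem charpoly_eq_of_finrank_two (hrk : Module.finrank R M = 2) (f : Module.End R M) :
    f.charpoly = X ^ 2 - C (LinearMap.trace R M f) * X + C (LinearMap.det f) := by
  let b := Module.finBasisOfFinrankEq R M hrk
  rw [← LinearMap.charpoly_toMatrix f b, Matrix.charpoly_fin_two,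
    ← LinearMap.trace_eq_matrix_trace R b f, LinearMap.det_toMatrix b f]

theorem trace_det_of_charpoly (hrk : Module.finrank R M = 2) (f : Module.End R M) (a d : R)
    (h : f.charpoly = X ^ 2 - C a * X + C d) :
    LinearMap.trace R M f = a ∧ LinearMap.det f = d := by
  rw [charpoly_eq_of_finrank_two hrk f] at h
  have h0 := congrArg (fun q : R[X] => q.coeff 0) h
  have h1 := congrArg (fun q : R[X] => q.coeff 1) h
  simp only [coeff_add, coeff_sub, coeff_X_pow, coeff_C_mul, coeff_X_zero,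
    coeff_X_one, mul_zero, mul_one, sub_zero, zero_add, coeff_C, OfNat.zero_ne_ofNat,
    OfNat.one_ne_ofNat, one_ne_zero, if_false, zero_sub, add_zero, neg_inj] at h0 h1
  exact ⟨h1, h0⟩

omit [Nontrivial R] in
theorem sq_X_sub_one_eq : ((X : R[X]) - 1) ^ 2 = X ^ 2 - C (2 : R) * X + C (1 : R) := by
  rw [map_ofNat, map_one]
  ring

theorem trace_det_of_unipotent (hrk : Module.finrank R M = 2) (f : Module.End R M)
    (h : f.charpoly = (X - 1) ^ 2) : LinearMap.trace R M f = 2 ∧ LinearMap.det f = 1 :=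
  trace_det_of_charpoly hrk f 2 1 (h.trans sq_X_sub_one_eq)

theorem unipotent_of_trace_det (hrk : Module.finrank R M = 2) (f : Module.End R M)
    (ht : LinearMap.trace R M f = 2) (hd : LinearMap.det f = 1) : f.charpoly = (X - 1) ^ 2 := by
  rw [charpoly_eq_of_finrank_two hrk f, ht, hd, sq_X_sub_one_eq]

omit [Nontrivial R] in
/-- An endomorphism congruent to `1` modulo `I` has determinant congruent to `1` modulo `I`. -/
theorem det_sub_one_mem (I : Ideal R) (f : Module.End R M)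
    (hf : ∀ v, f v - v ∈ I • (⊤ : Submodule R M)) : LinearMap.det f - 1 ∈ I := by
  classical
  let b := Module.Free.chooseBasis R M
  rw [← LinearMap.det_toMatrix b f, ← Ideal.Quotient.eq_zero_iff_mem, map_sub, map_one,
    RingHom.map_det]
  have : (Ideal.Quotient.mk I).mapMatrix (LinearMap.toMatrix b b f) = 1 := by
    ext i j
    rw [RingHom.mapMatrix_apply, Matrix.map_apply, LinearMap.toMatrix_apply, Matrix.one_apply]
    have h1 := repr_mem_of_mem_smul_top b I (hf (b j)) i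
    rw [map_sub, Finsupp.sub_apply, Module.Basis.repr_self, Finsupp.single_apply] at h1
    have h2 := (Ideal.Quotient.eq_zero_iff_mem).mpr h1
    rw [map_sub, sub_eq_zero] at h2
    rw [h2]
    by_cases hij : i = j
    · rw [if_pos hij, if_pos hij.symm, map_one]
    · rw [if_neg hij, if_neg (Ne.symm hij), map_zero]
  rw [this, Matrix.det_one, sub_self]

end LinAlg

/-! ### Continuity of the determinant -/

theorem det_congr_of_agree {A : Type} [CommRing A] [IsLocalRing A] (ρ : GaloisRepAdic A)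
    (n : ℕ) :
    ∃ L : IntermediateField ℚ Qb, FiniteDimensional ℚ L ∧
      ∀ g g' : GQ, (∀ x ∈ L, g x = g' x) →
        LinearMap.det (ρ.ρ g) - LinearMap.det (ρ.ρ g') ∈ IsLocalRing.maximalIdeal A ^ n := by
  obtain ⟨L, hL, h1⟩ := ρ.isAdicContinuous n
  refine ⟨L, hL, fun g g' hgg' => ?_⟩
  have hσ : ∀ x ∈ L, (g'⁻¹ * g) x = x := by
    intro x hx
    rw [AlgEquiv.mul_apply, hgg' x hx]
    exact (g'.symm_apply_apply x)
  have hg : g = g' * (g'⁻¹ * g) := by group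
  have key : LinearMap.det (ρ.ρ g) - LinearMap.det (ρ.ρ g') =
      LinearMap.det (ρ.ρ g') * (LinearMap.det (ρ.ρ (g'⁻¹ * g)) - 1) := by
    conv_lhs => rw [hg, map_mul, map_mul]
    ring
  rw [key]
  exact Ideal.mul_mem_left _ _ (det_sub_one_mem _ _ (h1 _ hσ))

/-! ### The per-point lemma -/

section Point

variable {p : ℕ} {N : ℕ} [NeZero N] {S : Finset ℕ}

lemma exists_field_of_point_unip (h30u : S30UStatement) (hp : p.Prime) (hpS : p ∈ S)
    (hNS : ∀ q : ℕ, q.Prime → q ∣ N → q ∈ S)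
    (P : PadicPoint p (CuspForm.heckeAlgebra N 2 (↑S : Set ℕ))) (n' : ℕ)
    (q : ℕ) (hq : q.Prime) (hqp : q ≠ p) (hqN : q ∣ N) (hq2 : ¬ q ^ 2 ∣ N) :
    ∃ L : IntermediateField ℚ Qb, FiniteDimensional ℚ L ∧
      ∀ (τ : GQ) (B₀ : ValuationSubring Qb), B₀.LiesOverPrime q → τ ∈ B₀.inertiaSubgroupIn ℚ →
      ∀ {ℓ : ℕ} (hℓ : ℓ.Prime) (hℓN : ¬ ℓ ∣ N) (hℓS : ℓ ∉ (↑S : Set ℕ))
        (B : ValuationSubring Qb) (_ : B.LiesOverPrime ℓ) (σ : GQ) (_ : B.IsFrobeniusAt σ ℓ)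
        (j : ℕ) (_ : ∀ x ∈ L, (σ ^ j) x = τ x),
        P.χ (heckePow hℓ hℓN hℓS j - 2) ∈ IsLocalRing.maximalIdeal P.O ^ n' ∧
        P.χ ((ℓ : CuspForm.heckeAlgebra N 2 (↑S : Set ℕ)) ^ j - 1) ∈
          IsLocalRing.maximalIdeal P.O ^ n' := by
  have : Fact p.Prime := ⟨hp⟩
  obtain ⟨O'', i1, i2, i3, i4, i5, i6, i7, i8, i9, hinj, ρ'', hfrob, hunip⟩ :=
    h30u p N S hpS hNS P.O P.hp P.χ
  obtain ⟨k, hk⟩ := exists_pow_comap_le (algebraMap P.O O'') hinj n'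
  obtain ⟨L₁, hL₁fin, hL₁⟩ := trace_congr_of_agree ρ'' k
  obtain ⟨L₂, hL₂fin, hL₂⟩ := det_congr_of_agree ρ'' k
  have := hL₁fin
  have := hL₂fin
  refine ⟨L₁ ⊔ L₂, IntermediateField.finiteDimensional_sup _ _, ?_⟩
  intro τ B₀ hB₀ hτ ℓ hℓ hℓN hℓS B hB σ hσ j hj
  have hfc : FrobCond ρ'' ((algebraMap P.O O'').comp P.χ) := by
    intro ℓ hℓ hℓN hℓS B hB σ hσ
    exact hfrob ℓ hℓ hℓN hℓS B hB σ hσ
  obtain ⟨htr, hdet⟩ := trace_det_of_unipotent ρ''.finrank_eq _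
    (hunip q hq hqp hqN hq2 B₀ hB₀ τ hτ)
  constructor
  · have e1 := trace_sub_hecke_mem ρ'' _ hfc k L₁ hL₁ τ hℓ hℓN hℓS B hB σ hσ j
      (fun x hx => hj x ((le_sup_left : L₁ ≤ L₁ ⊔ L₂) hx))
    apply hk
    have htr' : ρ''.trace τ = 2 := htr
    have : algebraMap P.O O'' (P.χ (heckePow hℓ hℓN hℓS j - 2)) =
        -(ρ''.trace τ - ((algebraMap P.O O'').comp P.χ) (heckePow hℓ hℓN hℓS j)) := by
      rw [htr']
      simp only [RingHom.comp_apply, map_sub, map_ofNat]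
      ring
    rw [this]
    exact Ideal.neg_mem_iff _ |>.mpr e1
  · have e2 := hL₂ τ (σ ^ j) (fun x hx => (hj x ((le_sup_right : L₂ ≤ L₁ ⊔ L₂) hx)).symm)
    have hdσ : LinearMap.det (ρ''.ρ σ) = (ℓ : O'') :=
      (trace_det_of_charpoly ρ''.finrank_eq _ _ _ (hfrob ℓ hℓ hℓN hℓS B hB σ hσ)).2
    rw [hdet, map_pow, map_pow, hdσ] at e2
    apply hk
    have : algebraMap P.O O'' (P.χ ((ℓ : CuspForm.heckeAlgebra N 2 (↑S : Set ℕ)) ^ j - 1)) =
        -(1 - (ℓ : O'') ^ j) := by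
      simp only [map_sub, map_pow, map_natCast, map_one]
      ring
    rw [this]
    exact Ideal.neg_mem_iff _ |>.mpr e2

end Point

/-! ### Main theorem -/

section Main

variable {p : ℕ} {N : ℕ} [NeZero N] {S : Finset ℕ}
  {𝒪 : Type} [CommRing 𝒪] [IsDomain 𝒪] [IsDiscreteValuationRing 𝒪]
  [IsAdicComplete (IsLocalRing.maximalIdeal 𝒪) 𝒪]
  {θ : CuspForm.heckeAlgebra N 2 (↑S : Set ℕ) →+* IsLocalRing.ResidueField 𝒪}
  {T : Type} [CommRing T] [IsLocalRing T] [IsNoetherianRing T]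
  [IsAdicComplete (IsLocalRing.maximalIdeal T) T] [Algebra 𝒪 T] [IsLocalHom (algebraMap 𝒪 T)]
  [Module.Finite 𝒪 T] [Module.Free 𝒪 T]

/-- trace and determinant of an inertia element at `q ‖ N` -/
theorem trace_det_inertia (h30u : S30UStatement) (hcheb : ChebStatement) (hp : p.Prime)
    (hp𝒪 : (p : 𝒪) ∈ IsLocalRing.maximalIdeal 𝒪) (hpS : p ∈ S)
    (hNS : ∀ q : ℕ, q.Prime → q ∣ N → q ∈ S)
    (hPTS : PTS p (CuspForm.heckeAlgebra N 2 (↑S : Set ℕ)))
    (H : CuspForm.HeckeGaloisRepDatum N (↑S : Set ℕ) 𝒪 θ T)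
    (q : ℕ) (hq : q.Prime) (hqp : q ≠ p) (hqN : q ∣ N) (hq2 : ¬ q ^ 2 ∣ N)
    (B₀ : ValuationSubring Qb) (hB₀ : B₀.LiesOverPrime q) (τ : GQ)
    (hτ : τ ∈ B₀.inertiaSubgroupIn ℚ) :
    H.ρ.trace τ = 2 ∧ LinearMap.det (H.ρ.ρ τ) = 1 := by
  have hK : (⨅ n, IsLocalRing.maximalIdeal T ^ n) = ⊥ :=
    Ideal.iInf_pow_eq_bot_of_isLocalRing _ (Ideal.IsMaximal.ne_top inferInstance)
  suffices h : ∀ n, H.ρ.trace τ - 2 ∈ IsLocalRing.maximalIdeal T ^ n ∧
      LinearMap.det (H.ρ.ρ τ) - 1 ∈ IsLocalRing.maximalIdeal T ^ n by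
    constructor
    · rw [← sub_eq_zero]
      have h1 : H.ρ.trace τ - 2 ∈ ⨅ n, IsLocalRing.maximalIdeal T ^ n := by
        rw [Ideal.mem_iInf]; exact fun n => (h n).1
      rw [hK] at h1; simpa using h1
    · rw [← sub_eq_zero]
      have h1 : LinearMap.det (H.ρ.ρ τ) - 1 ∈ ⨅ n, IsLocalRing.maximalIdeal T ^ n := by
        rw [Ideal.mem_iInf]; exact fun n => (h n).2
      rw [hK] at h1; simpa using h1
  intro n
  -- the prime `m` of the Hecke algebra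
  set m : Ideal (CuspForm.heckeAlgebra N 2 (↑S : Set ℕ)) :=
    Ideal.comap H.π (IsLocalRing.maximalIdeal T) with hm
  have hmprime : m.IsPrime := Ideal.comap_isPrime _ _
  have hpT : (p : T) ∈ IsLocalRing.maximalIdeal T := by
    have h1 : (p : T) = algebraMap 𝒪 T (p : 𝒪) := by simp
    rw [h1, IsLocalRing.mem_maximalIdeal, mem_nonunits_iff]
    intro hu
    exact (IsLocalRing.mem_maximalIdeal _).mp hp𝒪 (isUnit_of_map_unit (algebraMap 𝒪 T) _ hu)
  have hpm : (p : CuspForm.heckeAlgebra N 2 (↑S : Set ℕ)) ∈ m := by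
    rw [hm, Ideal.mem_comap, map_natCast]; exact hpT
  obtain ⟨F, n', hF⟩ := hPTS m hmprime hpm n
  -- fields
  have hpt := fun P : PadicPoint p (CuspForm.heckeAlgebra N 2 (↑S : Set ℕ)) =>
    exists_field_of_point_unip h30u hp hpS hNS P n' q hq hqp hqN hq2
  choose LP hLPfin hLP using hpt
  obtain ⟨E₁, hE₁fin, hE₁⟩ := exists_sup_of_list F LP hLPfin
  obtain ⟨L₀, hL₀fin, hL₀⟩ := trace_congr_of_agree H.ρ n
  obtain ⟨L₀', hL₀'fin, hL₀'⟩ := det_congr_of_agree H.ρ n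
  have := hE₁fin
  have := hL₀fin
  have := hL₀'fin
  have hfin2 : FiniteDimensional ℚ (L₀ ⊔ L₀' : IntermediateField ℚ Qb) :=
    IntermediateField.finiteDimensional_sup _ _
  set E : IntermediateField ℚ Qb := (L₀ ⊔ L₀') ⊔ E₁ with hE
  have hEfin : FiniteDimensional ℚ E := IntermediateField.finiteDimensional_sup _ _
  -- Frobenius data for `τ`
  obtain ⟨ℓ, B, σ, k, j, hℓ, hℓS, hB, hσ, -, -, hj⟩ := hcheb E hEfin τ S
  have hℓN : ¬ ℓ ∣ N := fun h => hℓS (hNS ℓ hℓ h)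
  have hℓS1 : ℓ ∉ (↑S : Set ℕ) := by simpa using hℓS
  have hL₀E : L₀ ≤ E := le_sup_left.trans le_sup_left
  have hL₀'E : L₀' ≤ E := le_sup_right.trans le_sup_left
  have hE₁E : E₁ ≤ E := le_sup_right
  have hfc : FrobCond H.ρ H.π := fun ℓ hℓ hℓN hℓS B hB σ hσ =>
    H.charpoly_frob ℓ hℓ hℓN hℓS B hB σ hσ
  have hmap : ∀ t, t ∈ m ^ n → H.π t ∈ IsLocalRing.maximalIdeal T ^ n := by
    intro t ht
    have h1 : (m ^ n).map H.π ≤ IsLocalRing.maximalIdeal T ^ n := by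
      rw [Ideal.map_pow]
      exact Ideal.pow_right_mono (Ideal.map_comap_le) n
    exact h1 (Ideal.mem_map_of_mem _ ht)
  have hpoints : ∀ P ∈ F, P.χ (heckePow hℓ hℓN hℓS1 j - 2) ∈ IsLocalRing.maximalIdeal P.O ^ n' ∧
      P.χ ((ℓ : CuspForm.heckeAlgebra N 2 (↑S : Set ℕ)) ^ j - 1) ∈
        IsLocalRing.maximalIdeal P.O ^ n' := fun P hP =>
    hLP P τ B₀ hB₀ hτ hℓ hℓN hℓS1 B hB σ hσ j (fun x hx => hj x (hE₁E (hE₁ P hP hx)))
  constructor
  · have e1 := trace_sub_hecke_mem H.ρ H.π hfc n L₀ hL₀ τ hℓ hℓN hℓS1 B hB σ hσ j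
      (fun x hx => hj x (hL₀E hx))
    have hdiff : heckePow hℓ hℓN hℓS1 j - 2 ∈ m ^ n := hF _ fun P hP => (hpoints P hP).1
    have hπ := hmap _ hdiff
    have : H.ρ.trace τ - 2 = (H.ρ.trace τ - H.π (heckePow hℓ hℓN hℓS1 j)) +
        H.π (heckePow hℓ hℓN hℓS1 j - 2) := by
      rw [map_sub, map_ofNat]; ring
    rw [this]
    exact Ideal.add_mem _ e1 hπ
  · have e2 := hL₀' τ (σ ^ j) (fun x hx => (hj x (hL₀'E hx)).symm)
    have hdσ : LinearMap.det (H.ρ.ρ σ) = (ℓ : T) :=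
      (trace_det_of_charpoly H.ρ.finrank_eq _ _ _ (hfc ℓ hℓ hℓN hℓS1 B hB σ hσ)).2
    rw [map_pow, map_pow, hdσ] at e2
    have hdiff : (ℓ : CuspForm.heckeAlgebra N 2 (↑S : Set ℕ)) ^ j - 1 ∈ m ^ n :=
      hF _ fun P hP => (hpoints P hP).2
    have hπ := hmap _ hdiff
    rw [map_sub, map_pow, map_natCast, map_one] at hπ
    have : LinearMap.det (H.ρ.ρ τ) - 1 = (LinearMap.det (H.ρ.ρ τ) - (ℓ : T) ^ j) +
        ((ℓ : T) ^ j - 1) := by ring
    rw [this]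
    exact Ideal.add_mem _ e2 hπ

/-- **S34 from its inputs**: in a Hecke–Galois datum of level `N`, the representation is
unipotent on inertia at every prime `q ≠ p` with `q ‖ N`. -/
theorem unipotent_of_parts (h30u : S30UStatement) (hcheb : ChebStatement) (hp : p.Prime)
    (hp𝒪 : (p : 𝒪) ∈ IsLocalRing.maximalIdeal 𝒪) (hpS : p ∈ S)
    (hNS : ∀ q : ℕ, q.Prime → q ∣ N → q ∈ S)
    (hPTS : PTS p (CuspForm.heckeAlgebra N 2 (↑S : Set ℕ)))
    (H : CuspForm.HeckeGaloisRepDatum N (↑S : Set ℕ) 𝒪 θ T)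
    (q : ℕ) (hq : q.Prime) (hqp : q ≠ p) (hqN : q ∣ N) (hq2 : ¬ q ^ 2 ∣ N) :
    H.ρ.IsUnipotentOnInertiaAt q := by
  intro B₀ hB₀ τ hτ
  obtain ⟨ht, hd⟩ := trace_det_inertia h30u hcheb hp hp𝒪 hpS hNS hPTS H q hq hqp hqN hq2
    B₀ hB₀ τ hτ
  exact unipotent_of_trace_det H.ρ.finrank_eq _ ht hd

end Main

/-- **The frozen statement S34 from its three inputs** (binders exactly as in the template). -/
theorem result_of_inputs (h30u : S30UStatement) (hcheb : ChebStatement)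
    (hPTS : ∀ (p : ℕ), p.Prime → ∀ (N : ℕ) [NeZero N] (S : Finset ℕ),
      (∀ q : ℕ, q.Prime → q ∣ N → q ∈ S) → PTS p (CuspForm.heckeAlgebra N 2 (↑S : Set ℕ)))
    {𝒪 : Type} [CommRing 𝒪] [IsDomain 𝒪] [IsDiscreteValuationRing 𝒪]
    [IsAdicComplete (IsLocalRing.maximalIdeal 𝒪) 𝒪] [Finite (IsLocalRing.ResidueField 𝒪)]
    [CharZero 𝒪]
    {p : ℕ} (hp : p.Prime) (hp𝒪 : (p : 𝒪) ∈ IsLocalRing.maximalIdeal 𝒪)
    {N : ℕ} [NeZero N] {S : Finset ℕ} (hpS : p ∈ S) (hNS : ∀ q : ℕ, q.Prime → q ∣ N → q ∈ S)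
    {θ : CuspForm.heckeAlgebra N 2 (↑S : Set ℕ) →+* IsLocalRing.ResidueField 𝒪}
    {T : Type} [CommRing T] [IsLocalRing T] [IsNoetherianRing T]
    [IsAdicComplete (IsLocalRing.maximalIdeal T) T] [Algebra 𝒪 T] [IsLocalHom (algebraMap 𝒪 T)]
    [Module.Finite 𝒪 T] [Module.Free 𝒪 T]
    (H : CuspForm.HeckeGaloisRepDatum N (↑S : Set ℕ) 𝒪 θ T)
    (q : ℕ) (hq : q.Prime) (hqp : q ≠ p) (hqN : q ∣ N) (hq2 : ¬ q ^ 2 ∣ N) :
    H.ρ.IsUnipotentOnInertiaAt q :=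
  unipotent_of_parts h30u hcheb hp hp𝒪 hpS hNS (hPTS p hp N S hNS) H q hq hqp hqN hq2

end Fermat.Agent.S34.H733
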